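/-
S12 / block FI : the two charts of `X₀(N)` (functions regular off `∞`, resp. off `0`), seen inside
`ℚ̄((q))` through the expansion at `∞`.  Definitions only.
-/
import Fermat.Agent.S12.FI.Core.Frac
import Fermat.Agent.S15.A.Cusp.Defs

set_option autoImplicit false

noncomputable section

namespace Fermat.Agent.S12.FI

open ModularCurve AlgebraicCurve Fermat.Agent.S24 Fermat.Agent.GAL.E Fermat.Agent.S15.A

/-- The functions regular at all places outside the set `s`. -/
def regOff {N : ℕ} (s : Set (Place Kbar (FN N))) : Subring (FN N) where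
  carrier := {f | ∀ v : Place Kbar (FN N), v ∉ s → f ∈ v.toValuationSubring}
  mul_mem' hf hg v hv := mul_mem (hf v hv) (hg v hv)
  one_mem' v _ := one_mem _
  add_mem' hf hg v hv := add_mem (hf v hv) (hg v hv)
  zero_mem' v _ := zero_mem _
  neg_mem' hf v hv := neg_mem (hf v hv)

theorem mem_regOff {N : ℕ} {s : Set (Place Kbar (FN N))} {f : FN N} :
    f ∈ regOff s ↔ ∀ v : Place Kbar (FN N), v ∉ s → f ∈ v.toValuationSubring := Iff.rfl

theorem regOff_mono {N : ℕ} {s t : Set (Place Kbar (FN N))} (h : s ⊆ t) : regOff s ≤ regOff t :=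
  fun _ hf v hv => hf v fun hs => hv (h hs)

/-- The `q`-expansion at `∞`. -/
def toL (N : ℕ) : FN N →+* LaurentSeries Kbar := algebraMap (FN N) (LaurentSeries Kbar)

theorem toL_apply (N : ℕ) (f : FN N) : toL N f = (f : LaurentSeries Kbar) := rfl

variable (N : ℕ) [NeZero N]

/-- functions regular off the two cusps -/
def Rcusp : Subring (FN N) := regOff {cuspInf N, cusp0 N}

/-- functions regular off `∞`, as `q`-expansions -/
def Rinf : Subring (LaurentSeries Kbar) := (regOff {cuspInf N}).map (toL N)

/-- functions regular off `0`, as `q`-expansions -/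
def Rzero : Subring (LaurentSeries Kbar) := (regOff {cusp0 N}).map (toL N)

end Fermat.Agent.S12.FI

end
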