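/-
S12 / block FI, node CH-6: elementary facts on the charts.
-/
import Fermat.Agent.S12.FI.Chart.Defs

set_option autoImplicit false

namespace Fermat.Agent.S12.FI

open ModularCurve AlgebraicCurve Fermat.Agent.S24 Fermat.Agent.GAL.E Fermat.Agent.S15.A
open HahnSeries (C)

variable (N : ℕ) [NeZero N]

theorem toL_algebraMap (c : Kbar) : toL N (algebraMap Kbar (FN N) c) = C c := by
  show algebraMap Kbar (LaurentSeries Kbar) c = C c
  rw [algebraMap_laurentSeries_eq_single Kbar c, HahnSeries.C_apply]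

theorem algebraMap_mem_regOff (s : Set (Place Kbar (FN N))) (c : Kbar) :
    algebraMap Kbar (FN N) c ∈ regOff s := fun v _ => v.algebraMap_mem' c

/-- `w` is an involution -/
theorem places_wN_wN (f : FN N) : wN N (wN N f) = f := by
  show levelCast (one_mul N) (wAL 1 N _ ((levelCast (one_mul N)).symm
    (levelCast (one_mul N) (wAL 1 N _ ((levelCast (one_mul N)).symm f))))) = f
  rw [AlgEquiv.symm_apply_apply, wAL_wAL, AlgEquiv.apply_symm_apply]

theorem places_wN_inv : (wN N)⁻¹ = wN N := by
  rw [inv_eq_iff_mul_eq_one]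
  exact AlgEquiv.ext fun f => places_wN_wN N f

/-- the action of `w` on places -/
theorem places_mem_smul_iff (v : Place Kbar (FN N)) (f : FN N) :
    f ∈ (SemilinearAut.ofAlgAut (wN N) • v).toValuationSubring ↔
      wN N f ∈ v.toValuationSubring := by
  rw [SemilinearAut.smul_toValuationSubring, ValuationSubring.mem_pointwise_smul_iff_inv_smul_mem,
    ← map_inv, places_wN_inv]
  rfl

theorem places_smul_smul (v : Place Kbar (FN N)) :
    SemilinearAut.ofAlgAut (wN N) • SemilinearAut.ofAlgAut (wN N) • v = v := by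
  apply Place.ext
  ext f
  rw [places_mem_smul_iff, places_mem_smul_iff, places_wN_wN]

theorem places_wN_JF_one :
    wN N (JF N 1 (one_dvd N)) = JF N N dvd_rfl := by
  show levelCast (one_mul N) (wAL 1 N _ ((levelCast (one_mul N)).symm (JF N 1 (one_dvd N)))) = _
  rw [levelCast_symm, levelCast_JF (one_mul N).symm 1 (one_dvd N) (one_dvd _),
    JF_congr (one_mul 1).symm (one_dvd (1 * N)) (by rw [one_mul]; exact one_dvd _),
    wAL_JF 1 N (Nat.coprime_one_right N) 1 1 N dvd_rfl (one_mul N) _ dvd_rfl,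
    levelCast_JF (one_mul N) (1 * N) dvd_rfl (by rw [one_mul])]
  exact JF_congr (one_mul N) _ _

theorem places_cuspVal_JF (d : ℕ) [NeZero d] (hd : d ∣ N) :
    Fermat.Agent.S17.W.cuspVal N (JF N d hd) = WithZero.exp (d : ℤ) := by
  have hc : ((JF N d hd : FN N) : LaurentSeries Kbar) = Jser d := rfl
  have ho : (Jser d).order = -(d : ℤ) := by
    rw [B.Jser_eq_qExpand, B.order_qExpand, B.order_Jser_one]; ring
  have h0 : JF N d hd ≠ 0 := by
    intro h
    have h1 : (Jser d).order = 0 := by rw [← hc, h]; simp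
    rw [ho] at h1
    have : (d : ℤ) ≠ 0 := by exact_mod_cast NeZero.ne d
    omega
  rw [Fermat.Agent.S17.W.cuspVal_eq_exp_neg_order N _ h0, hc, ho, neg_neg]

theorem places_mem_cuspInf_iff (f : FN N) :
    f ∈ (cuspInf N).toValuationSubring ↔ Fermat.Agent.S17.W.cuspVal N f ≤ 1 := by
  show f ∈ (Fermat.Agent.S17.W.cuspVal N).valuationSubring ↔ _
  rw [Valuation.mem_valuationSubring_iff]

/-- `w` exchanges the two cusps -/
theorem wN_mem_cuspInf_iff (f : FN N) :
    wN N f ∈ (cuspInf N).toValuationSubring ↔ f ∈ (cusp0 N).toValuationSubring :=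
  (places_mem_smul_iff N (cuspInf N) f).symm

theorem cusp0_ne_cuspInf (hN : 1 < N) : cusp0 N ≠ cuspInf N := by
  intro h
  have h1 := wN_mem_cuspInf_iff N (JF N 1 (one_dvd N) / JF N N dvd_rfl)
  have hw : wN N (JF N N dvd_rfl) = JF N 1 (one_dvd N) := by
    rw [← places_wN_JF_one, places_wN_wN]
  rw [h, map_div₀, places_wN_JF_one, hw, places_mem_cuspInf_iff, places_mem_cuspInf_iff,
    map_div₀, map_div₀, places_cuspVal_JF, places_cuspVal_JF, ← WithZero.exp_sub,
    ← WithZero.exp_sub, ← WithZero.exp_zero, WithZero.exp_le_exp, WithZero.exp_le_exp] at h1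
  have : (1 : ℤ) < (N : ℤ) := by exact_mod_cast hN
  push_cast at h1
  omega

theorem wN_mem_Rcusp (f : FN N) (hf : f ∈ Rcusp N) : wN N f ∈ Rcusp N := by
  intro v hv
  rw [← places_mem_smul_iff]
  refine hf _ ?_
  intro hs
  apply hv
  rcases hs with hs | hs
  · right
    show v = cusp0 N
    rw [cusp0, ← hs, places_smul_smul]
  · left
    have hs' : SemilinearAut.ofAlgAut (wN N) • v = SemilinearAut.ofAlgAut (wN N) • cuspInf N := hs
    rw [← places_smul_smul N v, hs', places_smul_smul]

/-- a function regular at `∞` is a power series -/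
theorem coeff_eq_zero_of_mem_cuspInf (f : FN N) (hf : f ∈ (cuspInf N).toValuationSubring) (n : ℤ)
    (hn : n < 0) : (f : LaurentSeries Kbar).coeff n = 0 :=
  (Fermat.Agent.S17.W.mem_cusp_iff N f).1 hf n hn

end Fermat.Agent.S12.FI
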