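/-
S12 / block FI, nodes CH-4, CH-5: Gauss norms of functions regular off the cusps, at a place `A` of
`ℚ̄` over a prime `l ∤ N` (`A` is NOT discrete).

CH-4: `f` regular off the cusps is integral over `ℚ̄[j]` (`S37.regInt`), hence has coefficients in a number field
with bounded denominators (`S44.F.isBdd_of_isIntegralElem`, Euler's formula for `χ'(u)`), hence is a constant
times an integral series with nonzero reduction (`S44.F.exists_scaling_of_isBdd`).
CH-5: the preimage under `w` of the Gauss ring of `FN N` is a valuation ring which contains the Gauss ring of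
`ℚ̄(j)`, so it is the Gauss ring (`S28.Export.eq_gaussRing_bigK`); then CH-4 for `w f` and the Gauss lemma.
(helper245, shadow of task 3074)
-/
import Fermat.Agent.S12.FI.Chart.Defs
import Fermat.Agent.S12.FI.Chart.Places
import Fermat.Agent.S15.A.Cusp.Cusp0
import Fermat.Agent.S44.F.Dual.Int.Main
import Fermat.Agent.S37.RegInt
import Fermat.Agent.S24.Export.Ramification
import Fermat.Agent.S28.Export.Main

set_option autoImplicit false

namespace Fermat.Agent.S12.FI

open ModularCurve AlgebraicCurve Fermat.Agent.S24 Fermat.Agent.GAL.E Fermat.Agent.S15.A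

section Abs

open Fermat.Agent.S28.Export Polynomial

variable {K : Type*} [Field K] [CharZero K] (O : ValuationSubring K) {N ℓ : ℕ} [Fact ℓ.Prime]
  (D : S28.UData N ℓ) (hℓ : O.LiesOverPrime ℓ)

/-- an automorphism of `K(j,u)` over `K` which maps the Gauss ring of `K(j)` into the Gauss ring of
`K(j,u)` preserves the Gauss ring (uniqueness of the extension of the Gauss valuation). -/
theorem Gauss_red_of_aut (F : IntermediateField K (LaurentSeries K)) (hF : F = bigK O D hℓ)
    (w : F ≃ₐ[K] F)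
    (hw : ∀ a : F, (a : LaurentSeries K) ∈ Rv O → ∃ g, Red O ((w a : F) : LaurentSeries K) g)
    (f : F) (hf : ∃ g, Red O (f : LaurentSeries K) g) :
    ∃ g, Red O ((w f : F) : LaurentSeries K) g := by
  subst hF
  have hV := eq_gaussRing_bigK O D hℓ
    ((gaussRing O _ (isGood_bigK O D hℓ)).comap (w : bigK O D hℓ →+* bigK O D hℓ))
    (fun a ha => hw a ha) (by
      intro c hc
      rw [ValuationSubring.mem_nonunits_iff]
      by_contra hcon
      rw [not_lt] at hcon
      have h1 : ((gaussRing O _ (isGood_bigK O D hℓ)).comap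
          (w : bigK O D hℓ →+* bigK O D hℓ)).valuation (algebraMap K (bigK O D hℓ) c)⁻¹ ≤ 1 := by
        rw [map_inv₀]
        exact inv_le_one_of_one_le₀ hcon
      rw [ValuationSubring.valuation_le_one_iff, ValuationSubring.mem_comap] at h1
      have h2 : (w : bigK O D hℓ →+* bigK O D hℓ) (algebraMap K (bigK O D hℓ) c)⁻¹ =
          algebraMap K (bigK O D hℓ) c⁻¹ := by
        rw [← map_inv₀]
        exact w.commutes _
      rw [h2, algebraMap_mem_gaussRing_iff] at h1
      rw [ValuationSubring.mem_nonunits_iff] at hc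
      rw [← ValuationSubring.valuation_le_one_iff, map_inv₀] at h1
      by_cases hc0 : c = 0
      · rw [hc0, map_zero, map_zero] at hcon
        exact absurd hcon (not_le.2 zero_lt_one)
      · have h3 : 0 < O.valuation c := zero_lt_iff.2 ((O.valuation.ne_zero_iff).2 hc0)
        have h4 := (inv_le_one₀ h3).1 h1
        exact absurd hc (not_lt.2 h4))
  have h1 : f ∈ (gaussRing O _ (isGood_bigK O D hℓ)).comap
      (w : bigK O D hℓ →+* bigK O D hℓ) := by
    rw [hV]
    exact hf
  exact h1

theorem Gauss_evalT_qExpand {S : Type*} [CommRing S] (d : ℕ) [NeZero d] (t : LaurentSeries S)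
    (P : S[X]) : evalT (qExpand S d t) P = qExpand S d (evalT t P) := by
  rw [evalT, evalT, coe_eval₂RingHom, coe_eval₂RingHom, hom_eval₂]
  congr 1
  ext a : 1
  exact (qExpand_C d a).symm

end Abs

section Conc

open Fermat.Agent.S28.Export Polynomial

variable (N : ℕ) [NeZero N] (A : ValuationSubring Kbar)

theorem Gauss_iota_qExpand (d : ℕ) [NeZero d] :
    iota A (qExpand A d (jqModC A)) = Jser d := by
  rw [B.Jser_eq_qExpand, coeffMap_qExpand, iota_jqModC]
  congr 1
  change jqModC Kbar = coeffEmb Kbar (qExpand ℚ 1 jq)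
  rw [qExpand_one_apply]
  exact (coeffMap_jqModC (R := ℚ) _).symm

omit [NeZero N] in
theorem Gauss_coe_aeval_JF (d : ℕ) [NeZero d] (hd : d ∣ N) (P : A[X]) :
    ((aeval (JF N d hd) (P.map A.subtype) : FN N) : LaurentSeries Kbar) =
      iota A (evalT (qExpand A d (jqModC A)) P) := by
  rw [iota_evalT, evalT_eq_aeval, Gauss_iota_qExpand]
  exact (Polynomial.aeval_algHom_apply (modularFunctionFieldBar N).val (JF N d hd) _).symm

theorem Gauss_rho_evalT_ne_zero (d : ℕ) [NeZero d] {P : A[X]}
    (hP : P.map (IsLocalRing.residue A) ≠ 0) :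
    rho A (evalT (qExpand A d (jqModC A)) P) ≠ 0 := by
  rw [coeffMap_evalT, coeffMap_qExpand, rho_jqModC, Gauss_evalT_qExpand]
  intro h
  have h1 := qExpand_injective d (h.trans (map_zero _).symm)
  exact hP (S28.evalJ_injective _ (h1.trans (map_zero _).symm))

/-- `w` maps the Gauss ring of `ℚ̄(j)` into the Gauss ring of `FN N` -/
theorem Gauss_red_wN_of_mem_Rv (a : FN N) (ha : (a : LaurentSeries Kbar) ∈ Rv A) :
    ∃ g, Red A ((wN N a : FN N) : LaurentSeries Kbar) g := by
  obtain ⟨haj, g, hg⟩ := ha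
  have haj' : (a : LaurentSeries Kbar) ∈ IntermediateField.adjoin Kbar {iota A (jqModC A)} := by
    rw [iota_jqModC]; exact haj
  obtain ⟨r, s, hs, h1, -⟩ := exists_frac_of_red (jqModC A) (injective_evalT_rho A) haj' hg
  have h2 : a * aeval (JF N 1 (one_dvd N)) (s.map A.subtype) =
      aeval (JF N 1 (one_dvd N)) (r.map A.subtype) := by
    apply Subtype.ext
    rw [MulMemClass.coe_mul, Gauss_coe_aeval_JF, Gauss_coe_aeval_JF, qExpand_one_apply]
    exact h1
  have h3 := congrArg (wN N) h2
  rw [map_mul, ← Polynomial.aeval_algHom_apply, ← Polynomial.aeval_algHom_apply,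
    places_wN_JF_one] at h3
  have h4 := congrArg (fun z : FN N => (z : LaurentSeries Kbar)) h3
  simp only [MulMemClass.coe_mul, Gauss_coe_aeval_JF] at h4
  have h5 := Gauss_rho_evalT_ne_zero A N hs
  exact ⟨_, _, _, h5, h4, div_mul_cancel₀ _ h5⟩

end Conc

variable (N : ℕ) [NeZero N] {l : ℕ} (hl : l.Prime) (hlN : ¬ l ∣ N)
  (A : ValuationSubring Kbar) (hA : A.LiesOverPrime l)

section Integral

open Polynomial

theorem Gauss_coe_jF (M : ℕ) :
    ((jF M : FN M) : LaurentSeries Kbar) = jqModC Kbar := by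
  change coeffEmb Kbar (qExpand ℚ 1 jq) = jqModC Kbar
  rw [qExpand_one_apply]
  exact coeffMap_jqModC (R := ℚ) _

theorem Gauss_comp (M : ℕ) :
    (modularFunctionFieldBar M).val.toRingHom.comp
      (aeval (jF M) : Kbar[X] →ₐ[Kbar] FN M).toRingHom = S28.evalJ Kbar := by
  apply Polynomial.ringHom_ext
  · intro a
    rw [S28.evalJ_C]
    change (modularFunctionFieldBar M).val (aeval (jF M) (C a)) = _
    rw [aeval_C, AlgHom.commutes, algebraMap_laurentSeries_eq_single]
    rfl
  · rw [S28.evalJ_X]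
    change (modularFunctionFieldBar M).val (aeval (jF M) X) = _
    rw [aeval_X]
    exact Gauss_coe_jF M

/-- functions regular off the cusps are integral over `ℚ̄[j]` -/
theorem Gauss_isIntegralElem (f : FN N) (hf : f ∈ Rcusp N) :
    (S28.evalJ Kbar).IsIntegralElem (f : LaurentSeries Kbar) := by
  have hFF : FF.IsFF1 Kbar (FN N) := S24.Export.isFF1 N
  have hreg : ∀ v : Place Kbar (FN N), 0 ≤ v.ord (jF N) → 0 ≤ v.ord f := by
    intro v hv
    refine FF.ord_nonneg_of_mem v (hf v ?_)
    rintro (rfl | rfl)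
    · rw [ord_cuspInf_jF] at hv
      omega
    · rw [ord_cusp0_jF] at hv
      have : 0 < (N : ℤ) := by exact_mod_cast Nat.pos_of_ne_zero (NeZero.ne N)
      omega
  obtain ⟨P, hP, hPb⟩ := S37.regInt Kbar (FN N) (jF N) (Formal.transcendental_jF N) f hreg
  have hl : P.map (algebraMap (Algebra.adjoin Kbar {jF N}) (FN N)) ∈
      Polynomial.lifts (aeval (jF N) : Kbar[X] →ₐ[Kbar] FN N).toRingHom := by
    rw [Polynomial.lifts_iff_coeff_lifts]
    intro i
    rw [coeff_map]
    have h2 : ∀ y : FN N, y ∈ Algebra.adjoin Kbar {jF N} →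
        y ∈ (aeval (jF N) : Kbar[X] →ₐ[Kbar] FN N).range := by
      intro y hy
      rwa [Algebra.adjoin_singleton_eq_range_aeval] at hy
    obtain ⟨r, hr⟩ := h2 _ (P.coeff i).2
    exact ⟨r, hr⟩
  obtain ⟨Q, hQ, -, hQm⟩ := Polynomial.lifts_and_natDegree_eq_and_monic hl (hP.map _)
  refine ⟨Q, hQm, ?_⟩
  have h0 : Q.eval₂ (aeval (jF N) : Kbar[X] →ₐ[Kbar] FN N).toRingHom f = 0 := by
    rw [← eval_map, hQ, eval_map]
    exact hPb
  have h1 := congrArg (modularFunctionFieldBar N).val.toRingHom h0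
  rw [hom_eval₂, Gauss_comp, map_zero] at h1
  exact h1

end Integral

/-- (CH-4) the Gauss norm of a function regular off the cusps is attained -/
theorem exists_gaussNorm (hl : l.Prime) (hlN : ¬ l ∣ N) (hA : A.LiesOverPrime l) (f : FN N)
    (hf : f ∈ Rcusp N) (h0 : f ≠ 0) :
    ∃ a : Kbar, a ≠ 0 ∧ Le A a (f : LaurentSeries Kbar) ∧ ¬ Lt A a (f : LaurentSeries Kbar) := by
  have hb : S44.F.IsBdd A (f : LaurentSeries Kbar) :=
    S44.F.isBdd_of_isIntegralElem l N hl hlN A hA _ f.2 (Gauss_isIntegralElem N f hf)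
  obtain ⟨c, x, hc, hx, hfx⟩ := S44.F.exists_scaling_of_isBdd l hl A hA _ hb
    (fun h => h0 (Subtype.ext h))
  have hle : Le A 1 (S18.Vert.inc A x) := fun n => by
    rw [S18.Vert.inc_coeff, map_one]
    exact (A.valuation_le_one_iff _).2 (x.coeff n).2
  have hfx' : (f : LaurentSeries Kbar) = HahnSeries.C c * S18.Vert.inc A x := hfx
  refine ⟨c, hc, ?_, ?_⟩
  · rw [hfx']
    have := hle.smul c
    rwa [mul_one] at this
  · intro hlt
    rw [hfx', lt_iff_smul hc, ← mul_assoc, ← map_mul, inv_mul_cancel₀ hc, map_one, one_mul,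
      lt_one_inc_iff] at hlt
    exact hx hlt

/-- (CH-5) = (GN): the Atkin-Lehner involution preserves integrality of the expansion -/
theorem le_one_wN (hl : l.Prime) (hlN : ¬ l ∣ N) (hA : A.LiesOverPrime l) (f : FN N)
    (hf : f ∈ Rcusp N) (hi : Le A 1 (f : LaurentSeries Kbar)) :
    Le A 1 ((wN N f : FN N) : LaurentSeries Kbar) := by
  have : Fact l.Prime := ⟨hl⟩
  obtain ⟨D, -, hu⟩ := S28.Export.exists_good_UData N l hlN
  have hF : modularFunctionFieldBar N = S28.Export.bigK A D hA := by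
    rw [S28.Export.bigK_eq_full A D hA hu, ← S28.Export.bar_eq_full]
  obtain ⟨P, hP⟩ := hi.exists_inc
  have hred : ∃ g, S28.Export.Red A (f : LaurentSeries Kbar) g :=
    ⟨_, hP ▸ S28.Export.red_iota P⟩
  obtain ⟨g, G₁, G₂, hG₂, h1, -⟩ := Gauss_red_of_aut A D hA (modularFunctionFieldBar N) hF (wN N)
    (Gauss_red_wN_of_mem_Rv N A) f hred
  by_cases h0 : wN N f = 0
  · rw [h0]
    exact le_zero 1
  obtain ⟨a, ha, hle, hnlt⟩ := exists_gaussNorm N A hl hlN hA (wN N f) (wN_mem_Rcusp N f hf) h0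
  refine hle.mono ?_
  rw [map_one]
  by_contra hcon
  rw [not_le] at hcon
  have hinv : A.valuation a⁻¹ < 1 := by
    rw [map_inv₀]
    exact inv_lt_one_of_one_lt₀ hcon
  have hG : ∀ G : LaurentSeries A, Le A 1 (S18.Vert.inc A G) := fun G n => by
    rw [S18.Vert.inc_coeff, map_one]
    exact (A.valuation_le_one_iff _).2 (G.coeff n).2
  have h2 : Lt A 1 ((HahnSeries.C a⁻¹ * ((wN N f : FN N) : LaurentSeries Kbar)) *
      S18.Vert.inc A G₂) := by
    have e : (HahnSeries.C a⁻¹ * ((wN N f : FN N) : LaurentSeries Kbar)) * S18.Vert.inc A G₂ =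
        HahnSeries.C a⁻¹ * S18.Vert.inc A G₁ := by
      rw [mul_assoc]
      congr 1
    rw [e]
    exact (hG G₁).smul_lt one_ne_zero hinv
  rcases lt_one_or_of_mul ((le_iff_smul ha).1 hle) (hG G₂) h2 with h3 | h3
  · exact hnlt ((lt_iff_smul ha).2 h3)
  · exact hG₂ ((lt_one_inc_iff G₂).1 h3)

end Fermat.Agent.S12.FI
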