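/-
S12 / block FI, node CH-2: functions of level one regular off `∞` (polynomials in `j`).
-/
import Fermat.Agent.S12.FI.Chart.Defs
import Fermat.Agent.S24.Export.Ramification
import Fermat.Agent.S27.RiemannI
import Fermat.Agent.GAL.E.Bound

set_option autoImplicit false

namespace Fermat.Agent.S12.FI

open ModularCurve AlgebraicCurve Fermat.Agent.S24 Fermat.Agent.GAL.E Fermat.Agent.S15.A
open HahnSeries (C)

/-- `j = q⁻¹ + ⋯` as a series -/
theorem levelOne_coe_jF : ((jF 1 : FN 1) : LaurentSeries Kbar) = coeffEmb Kbar jq := by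
  show Jser 1 = _
  rw [Jser, qExpand_one_apply]

theorem levelOne_coeff_pow_self (d : ℕ) : ((Jser 1) ^ d).coeff (-(d : ℤ)) = 1 := by
  rw [Jser, qExpand_one_apply, ← map_pow, coeffEmb_coeff, coeff_jq_pow_self, map_one]

theorem levelOne_coeff_pow_of_lt {d : ℕ} {m : ℤ} (hm : m < -(d : ℤ)) :
    ((Jser 1) ^ d).coeff m = 0 := by
  rw [Jser, qExpand_one_apply, ← map_pow, coeffEmb_coeff, coeff_jq_pow_of_lt hm, map_zero]

theorem levelOne_le_Jser (A : ValuationSubring Kbar) : Le A 1 (Jser 1) := by
  intro n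
  obtain ⟨m, hm⟩ := exists_int_coeff_Jser 1 n
  rw [hm, map_one]
  exact (A.valuation_le_one_iff _).2 (intCast_mem A m)

theorem levelOne_le_Jser_pow (A : ValuationSubring Kbar) (d : ℕ) : Le A 1 ((Jser 1) ^ d) := by
  induction d with
  | zero => rw [pow_zero]; exact le_one_one
  | succ d ih =>
    have := ih.mul (levelOne_le_Jser A)
    rwa [one_mul, ← pow_succ] at this

/-- `[FN 1 : ℚ̄(j)] = 1`. -/
theorem levelOne_finrank : Module.finrank (IntermediateField.adjoin Kbar {jF 1}) (FN 1) = 1 := by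
  rw [Export.finrank_eq_index 1, Subgroup.index_eq_one, eq_top_iff]
  intro g _
  rw [CongruenceSubgroup.Gamma0_mem]
  exact Subsingleton.elim _ _

/-- the only pole of `j` on `X(1)` is the cusp. -/
theorem levelOne_jF_mem_regOff : jF 1 ∈ regOff {cuspInf 1} := by
  classical
  have := Export.isFF1 1
  intro v hv
  rw [FF.mem_iff_ord_nonneg]
  by_contra hneg
  push Not at hneg
  obtain ⟨s, hs, hsum⟩ := FF.exists_finset_ord_neg (jF 1) (Formal.transcendental_jF 1)
  rw [levelOne_finrank] at hsum
  have hj0 : jF 1 ≠ 0 := by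
    intro h
    rw [h] at hneg
    simp at hneg
  have hc : (cuspInf 1).ord (jF 1) = -1 := by
    rw [Fermat.Agent.S17.W.ord_cusp 1 _ hj0]
    exact B.order_Jser_one
  have hcs : cuspInf 1 ∈ s := (hs _).2 (by rw [hc]; omega)
  have hvs : v ∈ s.erase (cuspInf 1) := Finset.mem_erase.2 ⟨hv, (hs _).2 hneg⟩
  rw [← Finset.add_sum_erase s _ hcs, ← Finset.add_sum_erase _ _ hvs, hc] at hsum
  have hle : ∑ w ∈ (s.erase (cuspInf 1)).erase v, w.ord (jF 1) ≤ 0 :=
    Finset.sum_nonpos fun w hw =>
      ((hs w).1 (Finset.mem_of_mem_erase (Finset.mem_of_mem_erase hw))).le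
  push_cast at hsum
  omega

theorem levelOne_coe_algebraMap (c : Kbar) :
    ((algebraMap Kbar (FN 1) c : FN 1) : LaurentSeries Kbar) = C c := by
  show algebraMap Kbar (LaurentSeries Kbar) c = _
  exact algebraMap_laurentSeries_eq_single Kbar c

theorem levelOne_lt_zero (A : ValuationSubring Kbar) : Lt A 1 (0 : LaurentSeries Kbar) := by
  intro n
  rw [HahnSeries.coeff_zero, map_zero, map_one]
  exact zero_lt_one

theorem levelOne_const_aux (A : ValuationSubring Kbar) (d : ℕ) :
    ∀ G : FN 1, G ∈ regOff {cuspInf 1} → Le A 1 (G : LaurentSeries Kbar) →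
      (∀ n : ℤ, n < 0 → A.valuation ((G : LaurentSeries Kbar).coeff n) < 1) →
      (∀ n : ℤ, n < -(d : ℤ) → (G : LaurentSeries Kbar).coeff n = 0) →
      ∃ c : Kbar, Lt A 1 ((G : LaurentSeries Kbar) - C c) := by
  induction d with
  | zero =>
    intro G hG _ _ hz
    have := Export.isFF1 1
    have hall : ∀ v : Place Kbar (FN 1), 0 ≤ v.ord G := by
      intro v
      rw [← FF.mem_iff_ord_nonneg]
      by_cases hv : v = cuspInf 1
      · rw [hv]
        exact (Fermat.Agent.S17.W.mem_cusp_iff 1 G).2 (by simpa using hz)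
      · exact hG v hv
    obtain ⟨c, hc⟩ := Fermat.Agent.S27.eq_algebraMap_of_forall_ord_nonneg G hall
    refine ⟨c, ?_⟩
    rw [hc, levelOne_coe_algebraMap, sub_self]
    exact levelOne_lt_zero A
  | succ d ih =>
    intro G hG hi hneg hz
    set a : Kbar := (G : LaurentSeries Kbar).coeff (-((d + 1 : ℕ) : ℤ)) with ha
    have hav : A.valuation a < 1 := hneg _ (by push_cast; omega)
    have hlt : Lt A 1 (C a * (Jser 1) ^ (d + 1)) :=
      (levelOne_le_Jser_pow A (d + 1)).smul_lt one_ne_zero hav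
    have hcoe : ((G - algebraMap Kbar (FN 1) a * jF 1 ^ (d + 1) : FN 1) : LaurentSeries Kbar)
        = (G : LaurentSeries Kbar) - C a * (Jser 1) ^ (d + 1) := by
      rw [← levelOne_coe_algebraMap]
      rfl
    obtain ⟨c, hc⟩ := ih (G - algebraMap Kbar (FN 1) a * jF 1 ^ (d + 1))
      (sub_mem hG (mul_mem (fun v _ => v.algebraMap_mem' a) (pow_mem levelOne_jF_mem_regOff _)))
      (by rw [hcoe]; exact hi.sub hlt.le)
      (by
        intro n hn
        rw [hcoe, HahnSeries.coeff_sub]
        have h1 := hlt n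
        rw [map_one] at h1
        exact (A.valuation.map_sub _ _).trans_lt (max_lt (hneg n hn) h1))
      (by
        intro n hn
        rw [hcoe, HahnSeries.coeff_sub, coeff_C_mul]
        rcases lt_or_eq_of_le (show n ≤ -((d + 1 : ℕ) : ℤ) by push_cast; omega) with h | h
        · rw [hz n h, levelOne_coeff_pow_of_lt h, mul_zero, sub_zero]
        · rw [h, levelOne_coeff_pow_self, mul_one, ← ha, sub_self])
    refine ⟨c, ?_⟩
    rw [hcoe] at hc
    have := hc.add hlt
    have e : (G : LaurentSeries Kbar) - C a * (Jser 1) ^ (d + 1) - C c + C a * (Jser 1) ^ (d + 1)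
        = (G : LaurentSeries Kbar) - C c := by ring
    rwa [e] at this

/-- a function of level one, regular off `∞`, with integral expansion whose principal part vanishes
modulo `𝔪`, is constant modulo `𝔪` -/
theorem levelOne_const (A : ValuationSubring Kbar) (G : FN 1) (hG : G ∈ regOff {cuspInf 1})
    (hi : Le A 1 (G : LaurentSeries Kbar))
    (hneg : ∀ n : ℤ, n < 0 → A.valuation ((G : LaurentSeries Kbar).coeff n) < 1) :
    ∃ c : Kbar, Lt A 1 ((G : LaurentSeries Kbar) - C c) := by
  refine levelOne_const_aux A (-(G : LaurentSeries Kbar).order).toNat G hG hi hneg ?_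
  intro n hn
  apply HahnSeries.coeff_eq_zero_of_lt_order
  omega

end Fermat.Agent.S12.FI
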