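/-
S12 / block FI, node CH-3: the norm from level `N` (prime) to level one, on `q`-expansions.
-/
import Fermat.Agent.S12.FI.Chart.Defs
import Fermat.Agent.GAL.E.QExp
import Fermat.Agent.S15.A.Cusp.Cusp0
import Fermat.Agent.S37.HeckeInputs.Main

set_option autoImplicit false

namespace Fermat.Agent.S12.FI

open ModularCurve AlgebraicCurve Fermat.Agent.S24 Fermat.Agent.S24.B Fermat.Agent.GAL.E
  Fermat.Agent.S15.A

namespace Norm

section Abstract

open Fermat.Agent.S24.FF Fermat.Agent.S37.HeckeInputs

variable {K F F' : Type*} [Field K] [Field F] [Field F'] [Algebra K F] [Algebra K F']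
  [IsAlgClosed K] [CharZero K] [IsFF1 K F] [IsFF1 K F']

/-- the norm of a function which is regular at all places above `v` is regular at `v` -/
theorem normAlong_mem (ψ : F →ₐ[K] F') (hfin : FiniteAlong K ψ) (hψ : ψ.toRingHom.IsIntegral)
    (y : F') (v : Place K F)
    (h : ∀ w : Place K F', w.restrictAlong ψ hψ = v → y ∈ w.toValuationSubring) :
    normAlong ψ y ∈ v.toValuationSubring := by
  classical
  rcases eq_or_ne y 0 with rfl | hy
  · have h0 : normAlong ψ (0 : F') = 0 := by
      let _ := algebraAlong ψ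
      have : Module.Finite F F' := hfin
      exact Algebra.norm_zero
    rw [h0]
    exact zero_mem _
  obtain ⟨D, -, hD⟩ := Fermat.Agent.S27.exists_isDivOf (K := K) y hy
  have h1 := normFormulaAlong ψ hfin y hy D hD v
  let _ := algebraAlong ψ
  have := isScalarTower_along ψ
  have := isIntegral_along ψ hψ
  rw [mem_iff_ord_nonneg]
  have h2 : v.ord (normAlong ψ y) = Divisor.pushforward F D v := h1.symm
  rw [h2, Divisor.pushforward_apply]
  refine Finset.sum_nonneg fun w _ => ?_
  split_ifs with hw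
  · rw [hD]
    exact mul_nonneg ((mem_iff_ord_nonneg w).1 (h w hw)) (Nat.cast_nonneg _)
  · exact le_rfl

omit [IsAlgClosed K] [CharZero K] [IsFF1 K F] [IsFF1 K F'] in
theorem mem_restrictAlong_iff (φ : F →ₐ[K] F') (hφ : φ.toRingHom.IsIntegral) (w : Place K F')
    (f : F) : f ∈ (w.restrictAlong φ hφ).toValuationSubring ↔ φ f ∈ w.toValuationSubring :=
  Iff.rfl

end Abstract

section Modular

open Fermat.Agent.GAL.E.QExp Fermat.Agent.S37.HeckeInputs

variable (N : ℕ) [NeZero N]

/-- the embeddings `τ_b` are the twisted expansions at the cusp `0` -/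
theorem tau_eq (hN : N.Prime) (b : ℕ) (τ : FN (1 * N) →+* LaurentSeries Kbar)
    (hα : ∀ x : FN 1, τ (heckeAlphaBar Kbar 1 N x) = qExpand Kbar (1 * N) (x : LaurentSeries Kbar))
    (hβ : ∀ x : FN 1, τ (heckeBetaBar Kbar 1 N x) =
      qExpand Kbar 1 (twist (zetaK N ^ b) (x : LaurentSeries Kbar))) (y : FN (1 * N)) :
    τ y = twist (zetaK N ^ b)
      ((wAL 1 N (Nat.coprime_one_right N) y : FN (1 * N)) : LaurentSeries Kbar) := by
  let φ₂ : FN (1 * N) →+* LaurentSeries Kbar :=
    (twist (zetaK N ^ b)).comp ((modularFunctionFieldBar (1 * N)).val.toRingHom.comp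
      (wAL 1 N (Nat.coprime_one_right N) : FN (1 * N) →+* FN (1 * N)))
  have hA : ∀ x : FN 1, τ (heckeAlphaBar Kbar 1 N x) = φ₂ (heckeAlphaBar Kbar 1 N x) := by
    intro x
    show _ = twist (zetaK N ^ b) ((wAL 1 N _ (heckeAlphaBar Kbar 1 N x) : FN (1 * N)) :
      LaurentSeries Kbar)
    rw [hα, wAL_alpha, coe_heckeBetaBar, HeckeComm.twist_qExpand, ← pow_mul, mul_comm b N, pow_mul,
      (isPrimitiveRoot_zetaK N).pow_eq_one, one_pow, twist_one]
    exact qExpand_congr (one_mul N) _
  have hB : ∀ x : FN 1, τ (heckeBetaBar Kbar 1 N x) = φ₂ (heckeBetaBar Kbar 1 N x) := by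
    intro x
    show _ = twist (zetaK N ^ b) ((wAL 1 N _ (heckeBetaBar Kbar 1 N x) : FN (1 * N)) :
      LaurentSeries Kbar)
    rw [hβ, wAL_beta, coe_heckeAlphaBar, qExpand_one_apply]
  have key : τ = φ₂ := by
    refine ringHom_ext_FN _ _ ?_ ?_
    · intro d _ hd
      have hd' : d ∣ N := by rw [one_mul] at hd; exact hd
      rcases (Nat.dvd_prime hN).1 hd' with h1 | h1
      · have e : JF (1 * N) d hd = heckeAlphaBar Kbar 1 N (JF 1 1 dvd_rfl) := by
          rw [heckeAlphaBar_JF]
          exact JF_congr h1 _ _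
        rw [e]
        exact hA _
      · have e : JF (1 * N) d hd = heckeBetaBar Kbar 1 N (JF 1 1 dvd_rfl) := by
          rw [heckeBetaBar_JF]
          exact JF_congr (by rw [h1, mul_one]) _ _
        rw [e]
        exact hB _
    · intro c
      rw [← (heckeAlphaBar Kbar 1 N).commutes c]
      exact hA _
  exact RingHom.congr_fun key y

/-- the product formula at level `1 * N` -/
theorem qExpand_normAlpha (hN : N.Prime) (y : FN (1 * N)) :
    qExpand Kbar N ((normAlpha 1 N y : FN 1) : LaurentSeries Kbar) =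
      qExpand Kbar N (y : LaurentSeries Kbar) *
        ∏ b ∈ Finset.range N, twist (zetaK N ^ b)
          ((wAL 1 N (Nat.coprime_one_right N) y : FN (1 * N)) : LaurentSeries Kbar) := by
  have hcop : Nat.Coprime N 1 := Nat.coprime_one_right N
  choose τ hτα hτβ using fun b : ℕ => exists_embedding 1 N hcop b
  let _ := algAlpha 1 N
  have : Module.Finite (FN 1) (FN (1 * N)) := finite_algAlpha 1 N
  have : CharZero (FN 1) := charZero_of_injective_algebraMap (algebraMap Kbar (FN 1)).injective
  have hcard : Fintype.card (Option (Fin N)) = Module.finrank (FN 1) (FN (1 * N)) := by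
    rw [finrank_algAlpha 1 N hN (fun h => hN.one_lt.ne' (Nat.dvd_one.1 h)), Fintype.card_option,
      Fintype.card_fin]
  have key := map_norm_eq_prod (expHom 1 (1 * N))
    (fun k : Option (Fin N) =>
      (k.elim (expHom (1 * N) (1 * N)) fun b => τ b : FN (1 * N) →+* LaurentSeries Kbar))
    (by
      intro k x
      rw [algebraMap_algAlpha]
      match k with
      | none => rw [Option.elim_none, expHom_apply, expHom_apply, coe_heckeAlphaBar]
      | some b => rw [Option.elim_some, hτα, expHom_apply])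
    (injective_family 1 N hN τ hτβ) hcard y
  rw [Fintype.prod_option] at key
  simp only [Option.elim_none, Option.elim_some, expHom_apply,
    fun b : ℕ => tau_eq N hN b (τ b) (hτα b) (hτβ b) y] at key
  rw [qExpand_congr (one_mul N), qExpand_congr (one_mul N), Fin.prod_univ_eq_prod_range
    (fun b : ℕ => twist (zetaK N ^ b)
      ((wAL 1 N (Nat.coprime_one_right N) y : FN (1 * N)) : LaurentSeries Kbar)) N] at key
  exact key

theorem coeff_qExpand_neg_iff (s : LaurentSeries Kbar) :
    (∀ n : ℤ, n < 0 → (qExpand Kbar N s).coeff n = 0) ↔ ∀ n : ℤ, n < 0 → s.coeff n = 0 := by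
  have hNpos : (0 : ℤ) < N := by exact_mod_cast Nat.pos_of_ne_zero (NeZero.ne N)
  constructor
  · intro h n hn
    rw [← qExpand_coeff_mul N]
    exact h _ (mul_neg_of_pos_of_neg hNpos hn)
  · intro h n hn
    by_cases hd : (N : ℤ) ∣ n
    · obtain ⟨k, rfl⟩ := hd
      rw [qExpand_coeff_mul]
      exact h k (by by_contra hk; push Not at hk; nlinarith)
    · exact qExpand_coeff_of_not_dvd N s hd

theorem normAlpha_eq_normAlong : normAlpha 1 N = normAlong (heckeAlphaBar Kbar 1 N) := rfl

/-- the norm of a function regular off the cusps is regular off `∞` -/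
theorem normAlpha_mem_regOff (y : FN N) (hy : y ∈ Rcusp N) :
    normAlpha 1 N (levelCast (one_mul N).symm y) ∈ regOff {cuspInf 1} := by
  intro v hv
  rw [normAlpha_eq_normAlong]
  refine normAlong_mem (heckeAlphaBar Kbar 1 N) (alpha_finite 1 N) (alpha_integral 1 N) _ v ?_
  intro w hw
  have hint : ((levelCast (one_mul N).symm : FN N ≃ₐ[Kbar] FN (1 * N)) :
      FN N →ₐ[Kbar] FN (1 * N)).toRingHom.IsIntegral :=
    RingHom.isIntegral_of_surjective _ (levelCast (one_mul N).symm).surjective
  let w' : Place Kbar (FN N) := w.restrictAlong _ hint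
  have hmem : ∀ f : FN N, f ∈ w'.toValuationSubring ↔
      levelCast (one_mul N).symm f ∈ w.toValuationSubring :=
    fun f => mem_restrictAlong_iff _ hint w f
  refine (hmem y).1 (hy w' fun hw' => hv ?_)
  have hcc : ∀ z : FN (1 * N), levelCast (one_mul N).symm (levelCast (one_mul N) z) = z := by
    intro z
    apply Subtype.ext
    rw [coe_levelCast, coe_levelCast]
  have hv' : ∀ x : FN 1, x ∈ v.toValuationSubring ↔
      levelCast (one_mul N) (heckeAlphaBar Kbar 1 N x) ∈ w'.toValuationSubring := by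
    intro x
    rw [hmem, hcc, ← hw]
    exact mem_restrictAlong_iff _ _ w x
  show v = cuspInf 1
  apply Place.ext
  ext x
  rw [hv', Fermat.Agent.S17.W.mem_cusp_iff]
  rcases hw' with hw' | hw'
  · rw [hw', Fermat.Agent.S17.W.mem_cusp_iff, coe_levelCast, coe_heckeAlphaBar]
  · have hw'' : w' = cusp0 N := hw'
    rw [hw'', Fermat.Agent.S24.FF.mem_iff_ord_nonneg, ord_cusp0,
      ← Fermat.Agent.S24.FF.mem_iff_ord_nonneg, Fermat.Agent.S17.W.mem_cusp_iff, wN_apply, hcc,
      wAL_alpha, coe_levelCast, coe_heckeBetaBar, coeff_qExpand_neg_iff]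

end Modular

end Norm

/-- `(Nm y)(q^N) = y(q^N) ∏_b (w y)(ζ^b q)`; the norm of a function regular off the cusps is regular
off `∞`. -/
theorem exists_norm_levelOne (N : ℕ) [NeZero N] (hN : N.Prime) (y : FN N) :
    ∃ G : FN 1, qExpand Kbar N (G : LaurentSeries Kbar) =
        qExpand Kbar N (y : LaurentSeries Kbar) *
          ∏ b ∈ Finset.range N, twist (zetaK N ^ b) ((wN N y : FN N) : LaurentSeries Kbar) ∧
      (y ∈ Rcusp N → G ∈ regOff {cuspInf 1}) := by
  refine ⟨normAlpha 1 N (levelCast (one_mul N).symm y), ?_, Norm.normAlpha_mem_regOff N y⟩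
  rw [Norm.qExpand_normAlpha N hN, coe_levelCast, wN_apply, coe_levelCast]

end Fermat.Agent.S12.FI
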