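/-
S12 / block FI, node CH-1 (Mathlib only): Laurent series over a field `k`.
-/
import Mathlib

set_option autoImplicit false

namespace Fermat.Agent.S12.FI

open HahnSeries (C)

variable {k : Type*} [Field k]

/-- a power series which is algebraic over `k` is constant -/
theorem resConst_powerSeries (f : PowerSeries k) (p : Polynomial k) (hp : p ≠ 0)
    (h : p.eval₂ (PowerSeries.C : k →+* PowerSeries k) f = 0) :
    f = PowerSeries.C (PowerSeries.constantCoeff f) := by
  obtain ⟨q, hq, hdvd⟩ :=
    p.exists_eq_pow_rootMultiplicity_mul_and_not_dvd hp (PowerSeries.constantCoeff f)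
  rw [hq, Polynomial.eval₂_mul, Polynomial.eval₂_pow, Polynomial.eval₂_sub, Polynomial.eval₂_X,
    Polynomial.eval₂_C] at h
  rcases mul_eq_zero.1 h with h1 | h1
  · exact sub_eq_zero.1 (pow_eq_zero_iff (M₀ := PowerSeries k) (n := p.rootMultiplicity (PowerSeries.constantCoeff f)) (by
      intro h0
      rw [h0, pow_zero] at h1
      exact one_ne_zero h1) |>.1 h1)
  · exfalso
    apply hdvd
    rw [Polynomial.dvd_iff_isRoot, Polynomial.IsRoot.def]
    have h2 := congrArg (PowerSeries.constantCoeff (R := k)) h1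
    rw [Polynomial.hom_eval₂, map_zero] at h2
    have h3 : (PowerSeries.constantCoeff (R := k)).comp (PowerSeries.C : k →+* PowerSeries k) =
        RingHom.id k := by
      ext x
      simp
    rw [h3] at h2
    exact h2

/-- a Laurent series without negative coefficients is a power series -/
theorem resConst_eq_coe (x : LaurentSeries k) (hx : ∀ i : ℤ, i < 0 → x.coeff i = 0) :
    x = HahnSeries.ofPowerSeries ℤ k (PowerSeries.mk fun n : ℕ => x.coeff n) := by
  ext i
  have h1 := PowerSeries.coeff_coe (PowerSeries.mk fun n : ℕ => x.coeff n) i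
  rw [show ((PowerSeries.mk fun n : ℕ => x.coeff n : PowerSeries k) : LaurentSeries k) =
    HahnSeries.ofPowerSeries ℤ k (PowerSeries.mk fun n : ℕ => x.coeff n) from rfl] at h1
  rw [h1]
  split_ifs with hi
  · exact hx i hi
  · rw [PowerSeries.coeff_mk, Int.natCast_natAbs, abs_of_nonneg (not_lt.1 hi)]

theorem resConst_eval₂_coe (f : PowerSeries k) (p : Polynomial k) :
    p.eval₂ (C : k →+* LaurentSeries k) (HahnSeries.ofPowerSeries ℤ k f) =
      HahnSeries.ofPowerSeries ℤ k (p.eval₂ (PowerSeries.C : k →+* PowerSeries k) f) := by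
  rw [Polynomial.hom_eval₂]
  congr 1
  ext x : 1
  exact (HahnSeries.ofPowerSeries_C x).symm

/-- an algebraic Laurent series without negative coefficients is constant -/
theorem resConst_of_nonneg (x : LaurentSeries k) (hx : ∀ i : ℤ, i < 0 → x.coeff i = 0)
    (p : Polynomial k) (hp : p ≠ 0) (h : p.eval₂ (C : k →+* LaurentSeries k) x = 0) :
    x = C (x.coeff 0) := by
  have h1 := resConst_eq_coe x hx
  rw [h1, resConst_eval₂_coe] at h
  have h2 : p.eval₂ (PowerSeries.C : k →+* PowerSeries k)
      (PowerSeries.mk fun n : ℕ => x.coeff n) = 0 :=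
    HahnSeries.ofPowerSeries_injective (by rw [h, map_zero])
  have h3 := resConst_powerSeries _ p hp h2
  have h4 : PowerSeries.constantCoeff (PowerSeries.mk fun n : ℕ => x.coeff n) = x.coeff 0 := by
    rw [← PowerSeries.coeff_zero_eq_constantCoeff_apply, PowerSeries.coeff_mk]
    rfl
  rw [h4] at h3
  conv_lhs => rw [h1, h3]
  exact HahnSeries.ofPowerSeries_C _

/-- `k` is algebraically closed in `k((q))` -/
theorem exists_eq_C_of_aeval_eq_zero (r : LaurentSeries k) (p : Polynomial k) (hp : p ≠ 0)
    (h : p.eval₂ (C : k →+* LaurentSeries k) r = 0) : ∃ ρ : k, r = C ρ := by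
  rcases eq_or_ne r 0 with rfl | hr
  · exact ⟨0, (map_zero _).symm⟩
  by_cases hn : r.order < 0
  · exfalso
    have hinv : r⁻¹ ≠ 0 := inv_ne_zero hr
    have hord : r.order + r⁻¹.order = 0 := by
      rw [← HahnSeries.order_mul hr hinv, mul_inv_cancel₀ hr, HahnSeries.order_one]
    have hpos : 0 < r⁻¹.order := by omega
    let _ := invertibleOfNonzero hr
    have h1 : p.reverse.eval₂ (C : k →+* LaurentSeries k) r⁻¹ = 0 := by
      rw [← invOf_eq_inv r]
      exact (Polynomial.eval₂_reverse_eq_zero_iff _ r p).2 h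
    have h2 := resConst_of_nonneg r⁻¹
      (fun i hi => HahnSeries.coeff_eq_zero_of_lt_order (lt_trans hi hpos)) p.reverse
      (fun h0 => hp (Polynomial.reverse_eq_zero.1 h0)) h1
    rw [HahnSeries.coeff_eq_zero_of_lt_order hpos, map_zero] at h2
    exact hinv h2
  · exact ⟨r.coeff 0, resConst_of_nonneg r
      (fun i hi => HahnSeries.coeff_eq_zero_of_lt_order (lt_of_lt_of_le hi (not_lt.1 hn))) p hp h⟩

/-- if `∏ (c - r i)` is a constant series for every constant `c`, all the `r i` are constants -/
theorem exists_eq_C_of_prod_const [Infinite k] {ι : Type*} (s : Finset ι)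
    (r : ι → LaurentSeries k) (h : ∀ c : k, ∃ γ : k, ∏ i ∈ s, (C c - r i) = C γ) :
    ∀ i ∈ s, ∃ ρ : k, r i = C ρ := by
  classical
  choose γ hγ using h
  obtain ⟨S, hS⟩ := Infinite.exists_subset_card_eq k (s.card + 1)
  set χ : Polynomial (LaurentSeries k) := ∏ i ∈ s, (Polynomial.X - Polynomial.C (r i)) with hχ
  set χ₀ : Polynomial k := Lagrange.interpolate S id γ with hχ₀
  have hinj : Set.InjOn (id : k → k) S := Function.injective_id.injOn
  have hmonic : χ.Monic := Polynomial.monic_prod_X_sub_C r s
  have hcard : (S.image (C : k → LaurentSeries k)).card = s.card + 1 := by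
    rw [Finset.card_image_of_injective _ HahnSeries.C_injective, hS]
  have hdeg : χ.degree < (S.image (C : k → LaurentSeries k)).card := by
    rw [hcard, Polynomial.degree_eq_natDegree hmonic.ne_zero, hχ,
      Polynomial.natDegree_finsetProd_X_sub_C_eq_card]
    exact_mod_cast Nat.lt_succ_self _
  have hdeg₀ : (χ₀.map (C : k →+* LaurentSeries k)).degree <
      (S.image (C : k → LaurentSeries k)).card := by
    refine lt_of_le_of_lt Polynomial.degree_map_le ?_
    rw [hcard, ← hS]
    exact Lagrange.degree_interpolate_lt γ hinj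
  have heq : χ = χ₀.map (C : k →+* LaurentSeries k) := by
    refine Polynomial.eq_of_degrees_lt_of_eval_finset_eq _ hdeg hdeg₀ ?_
    intro x hx
    obtain ⟨c, hc, rfl⟩ := Finset.mem_image.1 hx
    rw [Polynomial.eval_map, Polynomial.eval₂_hom, hχ₀]
    have h1 : Polynomial.eval c (Lagrange.interpolate S id γ) = γ c :=
      Lagrange.eval_interpolate_at_node γ hinj hc
    rw [h1, ← hγ c, hχ, Polynomial.eval_prod]
    refine Finset.prod_congr rfl fun i _ => ?_
    rw [Polynomial.eval_sub, Polynomial.eval_X, Polynomial.eval_C]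
  have hχ₀0 : χ₀ ≠ 0 := by
    intro h0
    rw [h0, Polynomial.map_zero] at heq
    exact hmonic.ne_zero heq
  intro i hi
  refine exists_eq_C_of_aeval_eq_zero (r i) χ₀ hχ₀0 ?_
  rw [← Polynomial.eval_map, ← heq, hχ, Polynomial.eval_prod]
  refine Finset.prod_eq_zero hi ?_
  rw [Polynomial.eval_sub, Polynomial.eval_X, Polynomial.eval_C, sub_self]

end Fermat.Agent.S12.FI
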