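/-
S12 / block FI, node CH-7: the Čech lemma (CL) and the instance of `TwoChart` for `X₀(N)`, `N` prime,
at a place `A` of `ℚ̄` over `l ≠ N`.  (proofs: helper40)
-/
import Fermat.Agent.S12.FI.Chart.ResConst
import Fermat.Agent.S12.FI.Chart.LevelOne
import Fermat.Agent.S12.FI.Chart.Norm
import Fermat.Agent.S12.FI.Chart.Gauss
import Fermat.Agent.S12.FI.Chart.Places
import Fermat.Agent.Lib.InertiaField.Residue
import Fermat.Agent.S28.IntLaurent

set_option autoImplicit false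

namespace Fermat.Agent.S12.FI

open ModularCurve AlgebraicCurve Fermat.Agent.S24 Fermat.Agent.GAL.E Fermat.Agent.S15.A
open HahnSeries (C)

section Aux

open Fermat.Agent.S28 (OrdGE)
open Fermat.Agent.S24.B Fermat.Agent.S18.Vert

variable {K : Type*} [Field K] {A : ValuationSubring K} {c : K} {f : LaurentSeries K}

theorem chartMain_le_qExpand (d : ℕ) [NeZero d] (h : Le A c f) : Le A c (qExpand K d f) :=
  fun n => by
  by_cases hd : (d : ℤ) ∣ n
  · obtain ⟨m, rfl⟩ := hd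
    rw [qExpand_coeff_mul]
    exact h m
  · rw [qExpand_coeff_of_not_dvd d f hd, map_zero]
    exact zero_le

theorem chartMain_lt_qExpand (d : ℕ) [NeZero d] (h : Lt A c f) : Lt A c (qExpand K d f) :=
  fun n => by
  by_cases hd : (d : ℤ) ∣ n
  · obtain ⟨m, rfl⟩ := hd
    rw [qExpand_coeff_mul]
    exact h m
  · rw [qExpand_coeff_of_not_dvd d f hd, map_zero]
    exact zero_lt_iff.2 ((A.valuation.ne_zero_iff).2 h.ne_zero)

theorem chartMain_le_of_qExpand (d : ℕ) [NeZero d] (h : Le A c (qExpand K d f)) : Le A c f :=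
  fun n => by
  rw [← qExpand_coeff_mul d f n]
  exact h _

theorem chartMain_lt_of_qExpand (d : ℕ) [NeZero d] (h : Lt A c (qExpand K d f)) : Lt A c f :=
  fun n => by
  rw [← qExpand_coeff_mul d f n]
  exact h _

theorem chartMain_val_zpow {ξ : Kˣ} {d : ℕ} (hd : d ≠ 0) (hξ : ξ ^ d = 1) (n : ℤ) :
    A.valuation ((ξ ^ n : Kˣ) : K) = 1 := by
  have h1 : A.valuation ((ξ ^ n : Kˣ) : K) ^ d = 1 := by
    rw [← map_pow, ← Units.val_pow_eq_pow_val, ← zpow_natCast, ← zpow_mul, mul_comm, zpow_mul,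
      zpow_natCast, hξ, one_zpow, Units.val_one, map_one]
  exact (pow_eq_one_iff.1 h1).resolve_right hd

theorem chartMain_le_twist {ξ : Kˣ} {d : ℕ} (hd : d ≠ 0) (hξ : ξ ^ d = 1) (h : Le A c f) :
    Le A c (twist ξ f) := fun n => by
  rw [twist_coeff, map_mul, chartMain_val_zpow hd hξ, one_mul]
  exact h n

theorem chartMain_le_prod {ι : Type*} (s : Finset ι) (F : ι → LaurentSeries K)
    (h : ∀ i ∈ s, Le A 1 (F i)) : Le A 1 (∏ i ∈ s, F i) :=
  Finset.prod_induction F (Le A 1)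
    (fun a b ha hb => by simpa using ha.mul hb) le_one_one h

theorem chartMain_ordGE_prod {ι : Type*} (s : Finset ι) (F : ι → LaurentSeries K)
    (h : ∀ i ∈ s, OrdGE (F i) 0) : OrdGE (∏ i ∈ s, F i) 0 :=
  Finset.prod_induction F (fun x => OrdGE x 0)
    (fun a b ha hb => by simpa using ha.mul hb) Fermat.Agent.S28.ordGE_one h

theorem chartMain_ordGE_sub {g : LaurentSeries K} (hf : OrdGE f 0) (hg : OrdGE g 0) :
    OrdGE (f - g) 0 := by
  rw [sub_eq_add_neg]
  exact hf.add hg.neg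

theorem chartMain_ordGE_qExpand (d : ℕ) [NeZero d] (h : OrdGE f 0) :
    OrdGE (qExpand K d f) 0 := fun n hn => by
  by_cases hd : (d : ℤ) ∣ n
  · obtain ⟨m, rfl⟩ := hd
    rw [qExpand_coeff_mul]
    apply h
    have hd0 : (0 : ℤ) < d := by exact_mod_cast NeZero.pos d
    by_contra hm
    exact absurd hn (not_lt.2 (mul_nonneg hd0.le (not_lt.1 hm)))
  · exact qExpand_coeff_of_not_dvd d f hd

theorem chartMain_ordGE_twist (ξ : Kˣ) (h : OrdGE f 0) : OrdGE (twist ξ f) 0 := fun n hn => by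
  rw [twist_coeff, h n hn, mul_zero]

theorem chartMain_inc_C (a : A) : inc A (C a) = C (a : K) := coeffMap_single _ 0 a

theorem chartMain_le_C {a : K} (ha : a ∈ A) : Le A 1 (C a) :=
  (le_C a).mono (by rw [map_one]; exact (A.valuation_le_one_iff a).2 ha)

end Aux

variable (N : ℕ) [NeZero N] {l : ℕ} (A : ValuationSubring Kbar)

open Fermat.Agent.S28 (OrdGE) in
open Fermat.Agent.S24.B Fermat.Agent.S18.Vert in
/-- the norm of `c - f₁` is constant modulo the maximal ideal -/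
theorem chartMain_key (hN : N.Prime) (hl : l.Prime) (hlN : l ≠ N) (hA : A.LiesOverPrime l)
    (f₁ f₂ : FN N) (h₁ : f₁ ∈ regOff {cuspInf N}) (h₂ : f₂ ∈ regOff {cusp0 N})
    (hi₁ : Le A 1 (f₁ : LaurentSeries Kbar))
    (h : Lt A 1 ((f₁ : LaurentSeries Kbar) - (f₂ : LaurentSeries Kbar))) (a : A) :
    ∃ γ : A, Lt A 1 ((C (a : Kbar) - qExpand Kbar N (f₁ : LaurentSeries Kbar)) *
      ∏ b ∈ Finset.range N,
        (C (a : Kbar) - twist (zetaK N ^ b) ((wN N f₁ : FN N) : LaurentSeries Kbar)) -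
      C (γ : Kbar)) := by
  have hlN' : ¬ l ∣ N := fun hd => hlN ((Nat.prime_dvd_prime_iff_eq hl hN).1 hd)
  have hne : cusp0 N ≠ cuspInf N := cusp0_ne_cuspInf N hN.one_lt
  have hf1R : f₁ ∈ Rcusp N := regOff_mono (fun x hx => Or.inl hx) h₁
  have hgreg : wN N f₁ ∈ (cuspInf N).toValuationSubring :=
    (wN_mem_cuspInf_iff N f₁).2 (h₁ _ hne)
  have hgpow : OrdGE ((wN N f₁ : FN N) : LaurentSeries Kbar) 0 :=
    fun n hn => coeff_eq_zero_of_mem_cuspInf N _ hgreg n hn
  have hgi : Le A 1 ((wN N f₁ : FN N) : LaurentSeries Kbar) :=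
    le_one_wN N A hl hlN' hA f₁ hf1R hi₁
  have hf2pow : OrdGE (f₂ : LaurentSeries Kbar) 0 :=
    fun n hn => coeff_eq_zero_of_mem_cuspInf N f₂ (h₂ _ hne.symm) n hn
  have hy : algebraMap Kbar (FN N) (a : Kbar) - f₁ ∈ Rcusp N :=
    sub_mem (algebraMap_mem_regOff N _ _) hf1R
  obtain ⟨G, hG, hGreg⟩ := exists_norm_levelOne N hN (algebraMap Kbar (FN N) (a : Kbar) - f₁)
  have hcoe : ∀ x : FN N, ((algebraMap Kbar (FN N) (a : Kbar) - x : FN N) : LaurentSeries Kbar) =
      C (a : Kbar) - (x : LaurentSeries Kbar) := by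
    intro x
    have := map_sub (toL N) (algebraMap Kbar (FN N) (a : Kbar)) x
    rw [toL_algebraMap] at this
    exact this
  rw [map_sub, AlgEquiv.commutes, hcoe, hcoe, map_sub, qExpand_C] at hG
  simp only [map_sub, twist_C] at hG
  have hζ : ∀ b : ℕ, (zetaK N ^ b) ^ N = 1 := by
    intro b
    rw [← pow_mul, mul_comm, pow_mul, (isPrimitiveRoot_zetaK N).pow_eq_one, one_pow]
  have hC1 : Le A 1 (C (a : Kbar)) := chartMain_le_C a.2
  have hCp : OrdGE (C (a : Kbar) : LaurentSeries Kbar) 0 := Fermat.Agent.S28.ordGE_C _ _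
  have hPi : Le A 1 (∏ b ∈ Finset.range N,
      (C (a : Kbar) - twist (zetaK N ^ b) ((wN N f₁ : FN N) : LaurentSeries Kbar))) :=
    chartMain_le_prod _ _ fun b _ => hC1.sub (chartMain_le_twist (NeZero.ne N) (hζ b) hgi)
  have hPip : OrdGE (∏ b ∈ Finset.range N,
      (C (a : Kbar) - twist (zetaK N ^ b) ((wN N f₁ : FN N) : LaurentSeries Kbar))) 0 :=
    chartMain_ordGE_prod _ _ fun b _ => chartMain_ordGE_sub hCp (chartMain_ordGE_twist _ hgpow)
  have hGi : Le A 1 (G : LaurentSeries Kbar) := by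
    apply chartMain_le_of_qExpand N
    rw [hG]
    simpa using (hC1.sub (chartMain_le_qExpand N hi₁)).mul hPi
  have hneg : ∀ n : ℤ, n < 0 → A.valuation ((G : LaurentSeries Kbar).coeff n) < 1 := by
    intro n hn
    have e : qExpand Kbar N (G : LaurentSeries Kbar) =
        (C (a : Kbar) - qExpand Kbar N (f₂ : LaurentSeries Kbar)) * (∏ b ∈ Finset.range N,
          (C (a : Kbar) - twist (zetaK N ^ b) ((wN N f₁ : FN N) : LaurentSeries Kbar))) +
        qExpand Kbar N ((f₁ : LaurentSeries Kbar) - (f₂ : LaurentSeries Kbar)) *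
          (-∏ b ∈ Finset.range N,
          (C (a : Kbar) - twist (zetaK N ^ b) ((wN N f₁ : FN N) : LaurentSeries Kbar))) := by
      rw [hG, map_sub]
      ring
    have p1 : OrdGE ((C (a : Kbar) - qExpand Kbar N (f₂ : LaurentSeries Kbar)) *
        (∏ b ∈ Finset.range N,
          (C (a : Kbar) - twist (zetaK N ^ b) ((wN N f₁ : FN N) : LaurentSeries Kbar)))) 0 := by
      simpa using (chartMain_ordGE_sub hCp (chartMain_ordGE_qExpand N hf2pow)).mul hPip
    have p2 := (chartMain_lt_qExpand N h).mul_le hPi.neg one_ne_zero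
    have hN0 : (0 : ℤ) < N := by exact_mod_cast NeZero.pos N
    have hn' : (N : ℤ) * n < 0 := mul_neg_of_pos_of_neg hN0 hn
    rw [← qExpand_coeff_mul N (G : LaurentSeries Kbar) n, e, HahnSeries.coeff_add, p1 _ hn',
      zero_add]
    simpa using p2 ((N : ℤ) * n)
  obtain ⟨γ, hγ⟩ := levelOne_const A G (hGreg hy) hGi hneg
  have hγA : γ ∈ A := by
    have h1 : Le A 1 (C γ : LaurentSeries Kbar) := by
      have := hGi.sub hγ.le
      rwa [sub_sub_cancel] at this
    have h2 := h1 0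
    rw [coeff_C, if_pos rfl, map_one] at h2
    exact (A.valuation_le_one_iff γ).1 h2
  refine ⟨⟨γ, hγA⟩, ?_⟩
  have h3 := chartMain_lt_qExpand N hγ
  rwa [map_sub, qExpand_C, hG] at h3

open Fermat.Agent.S24.B Fermat.Agent.S18.Vert in
/-- **(CL)** the Čech lemma -/
theorem cech (hN : N.Prime) (hl : l.Prime) (hlN : l ≠ N) (hA : A.LiesOverPrime l)
    (f₁ f₂ : FN N) (h₁ : f₁ ∈ regOff {cuspInf N}) (h₂ : f₂ ∈ regOff {cusp0 N})
    (hi₁ : Le A 1 (f₁ : LaurentSeries Kbar)) (hi₂ : Le A 1 (f₂ : LaurentSeries Kbar))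
    (h : Lt A 1 ((f₁ : LaurentSeries Kbar) - (f₂ : LaurentSeries Kbar))) :
    ∃ c : Kbar, Lt A 1 ((f₁ : LaurentSeries Kbar) - C c) := by
  classical
  have hlN' : ¬ l ∣ N := fun hd => hlN ((Nat.prime_dvd_prime_iff_eq hl hN).1 hd)
  have hf1R : f₁ ∈ Rcusp N := regOff_mono (fun x hx => Or.inl hx) h₁
  have hgi : Le A 1 ((wN N f₁ : FN N) : LaurentSeries Kbar) :=
    le_one_wN N A hl hlN' hA f₁ hf1R hi₁
  have hζ : ∀ b : ℕ, (zetaK N ^ b) ^ N = 1 := by
    intro b
    rw [← pow_mul, mul_comm, pow_mul, (isPrimitiveRoot_zetaK N).pow_eq_one, one_pow]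
  obtain ⟨PE, hPE⟩ := (chartMain_le_qExpand N hi₁).exists_inc
  have hT : ∀ b : ℕ, ∃ Q : LaurentSeries A,
      inc A Q = twist (zetaK N ^ b) ((wN N f₁ : FN N) : LaurentSeries Kbar) :=
    fun b => (chartMain_le_twist (NeZero.ne N) (hζ b) hgi).exists_inc
  choose Q hQ using hT
  have hac : IsAlgClosed (IsLocalRing.ResidueField A) :=
    Fermat.Agent.Lib.InertiaField.isAlgClosed_residueField A
  have hinf : Infinite (IsLocalRing.ResidueField A) := inferInstance
  let r : Option ℕ → LaurentSeries (IsLocalRing.ResidueField A) :=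
    fun o => o.elim (S18.Vert.red A PE) (fun b => S18.Vert.red A (Q b))
  have hprod : ∀ cbar : IsLocalRing.ResidueField A, ∃ γ : IsLocalRing.ResidueField A,
      ∏ i ∈ Finset.insertNone (Finset.range N), (C cbar - r i) = C γ := by
    intro cbar
    obtain ⟨a, rfl⟩ := IsLocalRing.residue_surjective cbar
    obtain ⟨γ, hγ⟩ := chartMain_key N A hN hl hlN hA f₁ f₂ h₁ h₂ hi₁ h a
    refine ⟨IsLocalRing.residue A γ, ?_⟩
    rw [Finset.prod_insertNone]
    have e : (C (a : Kbar) - qExpand Kbar N (f₁ : LaurentSeries Kbar)) *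
        ∏ b ∈ Finset.range N,
          (C (a : Kbar) - twist (zetaK N ^ b) ((wN N f₁ : FN N) : LaurentSeries Kbar)) -
        C (γ : Kbar) =
        inc A ((C a - PE) * ∏ b ∈ Finset.range N, (C a - Q b) - C γ) := by
      simp only [map_sub, map_mul, map_prod, hPE, hQ, chartMain_inc_C]
    rw [e, lt_one_inc_iff] at hγ
    simp only [map_sub, map_mul, map_prod, S18.Vert.red_C] at hγ
    exact sub_eq_zero.1 hγ
  obtain ⟨ρ, hρ⟩ := exists_eq_C_of_prod_const _ r hprod none (by simp)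
  obtain ⟨a₀, rfl⟩ := IsLocalRing.residue_surjective ρ
  refine ⟨(a₀ : Kbar), ?_⟩
  apply chartMain_lt_of_qExpand N
  rw [map_sub, qExpand_C, ← hPE, ← chartMain_inc_C, ← map_sub, lt_one_inc_iff, map_sub, S18.Vert.red_C]
  exact sub_eq_zero.2 hρ

/-- **The two charts of `X₀(N)`.** -/
theorem twoChart (hN : N.Prime) (hl : l.Prime) (hlN : l ≠ N) (hA : A.LiesOverPrime l) :
    TwoChart A (Rinf N) (Rzero N) := by
  have hlN' : ¬ l ∣ N := fun hd => hlN ((Nat.prime_dvd_prime_iff_eq hl hN).1 hd)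
  have hne : cusp0 N ≠ cuspInf N := cusp0_ne_cuspInf N hN.one_lt
  refine ⟨fun c => ?_, fun c => ?_, ?_, ?_, ?_, ?_⟩
  · exact Subring.mem_map.2 ⟨_, algebraMap_mem_regOff N _ c, toL_algebraMap N c⟩
  · exact Subring.mem_map.2 ⟨_, algebraMap_mem_regOff N _ c, toL_algebraMap N c⟩
  · intro f hf n hn
    obtain ⟨f', hf', rfl⟩ := Subring.mem_map.1 hf
    exact coeff_eq_zero_of_mem_cuspInf N f' (hf' _ hne.symm) n hn
  · intro f hf h0
    obtain ⟨f', hf', rfl⟩ := Subring.mem_map.1 hf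
    exact exists_gaussNorm N A hl hlN' hA f' (regOff_mono (fun x hx => Or.inl hx) hf')
      (fun h => h0 (by rw [h, map_zero]))
  · intro f hf h0
    obtain ⟨f', hf', rfl⟩ := Subring.mem_map.1 hf
    exact exists_gaussNorm N A hl hlN' hA f' (regOff_mono (fun x hx => Or.inr hx) hf')
      (fun h => h0 (by rw [h, map_zero]))
  · intro f₁ hf₁ f₂ hf₂ hi₁ hi₂ h
    obtain ⟨f₁', h₁, rfl⟩ := Subring.mem_map.1 hf₁
    obtain ⟨f₂', h₂, rfl⟩ := Subring.mem_map.1 hf₂
    exact cech N A hN hl hlN hA f₁' f₂' h₁ h₂ hi₁ hi₂ h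

end Fermat.Agent.S12.FI
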